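import Mathlib.Tactic.LinearCombination
import Mathlib.Tactic.Ring
import Mathlib.Tactic.FieldSimp
import Mathlib.Algebra.Field.Basic

/-!
# Pure algebra for the multiplication-by-`n` induction

`x, X_k` are x-coordinates of `Q, kQ`; `w_k` values of division polynomials at `Q`.
`C(k)` is `(X_k - x) w_k² = - w_{k+1} w_{k-1}`.
-/

set_option autoImplicit false

namespace S13H30

variable {F : Type*} [Field F]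

/-- `(O)`: from `C(m)`, `C(m+1)` and the odd doubling formula. -/
lemma alg_O {x Xm Xp1 wm1 wm wp1 wp2 wn : F}
    (hCm : (Xm - x) * wm ^ 2 = -(wp1 * wm1))
    (hCp1 : (Xp1 - x) * wp1 ^ 2 = -(wp2 * wm))
    (hn : wn = wp2 * wm ^ 3 - wm1 * wp1 ^ 3) :
    (Xp1 - Xm) * (wp1 * wm) ^ 2 = -wn := by
  rw [hn]
  linear_combination wm ^ 2 * hCp1 - wp1 ^ 2 * hCm

/-- `(E)`: from `C(m-1)`, `C(m+1)` and the even doubling formula. -/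
lemma alg_E {x Xm1 Xp1 wm2 wm1 wm wp1 wp2 w2 wn : F}
    (hCm1 : (Xm1 - x) * wm1 ^ 2 = -(wm * wm2))
    (hCp1 : (Xp1 - x) * wp1 ^ 2 = -(wp2 * wm))
    (hn : wn * w2 = wm1 ^ 2 * wm * wp2 - wm2 * wm * wp1 ^ 2) :
    (Xp1 - Xm1) * (wp1 * wm1) ^ 2 = -(wn * w2) := by
  rw [hn]
  linear_combination wm1 ^ 2 * hCp1 - wp1 ^ 2 * hCm1

/-- Odd step: `n = 2m+1`. Indices: `m2 = m-2`, `m1 = m-1`, `p1 = m+1`, `p2 = m+2`, `p3 = m+3`,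
`nm1 = 2m`, `np1 = 2m+2`. `pA = ψ₂((m+1)Q)`, `pB = ψ₂(mQ)`. -/
lemma alg_odd_step {x Xm1 Xm Xp1 Xp2 Xn wm2 wm1 wm wp1 wp2 wp3 w2 wnm1 wn wnp1 pA pB : F}
    (hCm1 : (Xm1 - x) * wm1 ^ 2 = -(wm * wm2))
    (hCm : (Xm - x) * wm ^ 2 = -(wp1 * wm1))
    (hCp1 : (Xp1 - x) * wp1 ^ 2 = -(wp2 * wm))
    (hCp2 : (Xp2 - x) * wp2 ^ 2 = -(wp3 * wp1))
    (hn : wn = wp2 * wm ^ 3 - wm1 * wp1 ^ 3)
    (hnm1 : wnm1 * w2 = wm1 ^ 2 * wm * wp2 - wm2 * wm * wp1 ^ 2)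
    (hnp1 : wnp1 * w2 = wm ^ 2 * wp1 * wp3 - wm1 * wp1 * wp2 ^ 2)
    (D1 : (Xn - x) * (Xp1 - Xm) ^ 2 = -(pA * pB))
    (D2 : (Xp2 - Xm) * (Xp1 - x) ^ 2 = -(pA * w2))
    (D3 : (Xp1 - Xm1) * (Xm - x) ^ 2 = -(pB * w2))
    (hw2 : w2 ≠ 0) :
    (Xn - x) * wn ^ 2 = -(wnp1 * wnm1) := by
  have hO := alg_O hCm hCp1 hn
  have hE1 : (Xp2 - Xm) * (wp2 * wm) ^ 2 = -(wnp1 * w2) := by
    rw [hnp1]
    linear_combination wm ^ 2 * hCp2 - wp2 ^ 2 * hCm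
  have hE0 := alg_E hCm1 hCp1 hnm1
  have hdag : (Xn - x) * (Xp1 - Xm) ^ 2 * w2 ^ 2
      = -((Xp2 - Xm) * (Xp1 - Xm1) * (Xp1 - x) ^ 2 * (Xm - x) ^ 2) := by
    linear_combination w2 ^ 2 * D1 + (Xp1 - Xm1) * (Xm - x) ^ 2 * D2 - pA * w2 * D3
  have h1 : wn ^ 2 = (Xp1 - Xm) ^ 2 * (wp1 * wm) ^ 4 := by
    have : wn = -((Xp1 - Xm) * (wp1 * wm) ^ 2) := by rw [hO]; ring
    rw [this]; ring
  have h2 : (Xp1 - x) ^ 2 * wp1 ^ 4 = (wp2 * wm) ^ 2 := by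
    have : (Xp1 - x) ^ 2 * wp1 ^ 4 = ((Xp1 - x) * wp1 ^ 2) ^ 2 := by ring
    rw [this, hCp1]; ring
  have h3 : (Xm - x) ^ 2 * wm ^ 4 = (wp1 * wm1) ^ 2 := by
    have : (Xm - x) ^ 2 * wm ^ 4 = ((Xm - x) * wm ^ 2) ^ 2 := by ring
    rw [this, hCm]; ring
  have key : ((Xn - x) * wn ^ 2 + wnp1 * wnm1) * w2 ^ 2 = 0 := by
    have e1 : (Xn - x) * wn ^ 2 * w2 ^ 2
        = -((Xp2 - Xm) * (Xp1 - Xm1)) * ((Xp1 - x) ^ 2 * wp1 ^ 4) * ((Xm - x) ^ 2 * wm ^ 4) := by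
      rw [h1]
      linear_combination (wp1 * wm) ^ 4 * hdag
    rw [h2, h3] at e1
    have e2 : (Xp2 - Xm) * (Xp1 - Xm1) * (wp2 * wm) ^ 2 * (wp1 * wm1) ^ 2
        = (wnp1 * w2) * (wnm1 * w2) := by
      have : (Xp2 - Xm) * (Xp1 - Xm1) * (wp2 * wm) ^ 2 * (wp1 * wm1) ^ 2
          = ((Xp2 - Xm) * (wp2 * wm) ^ 2) * ((Xp1 - Xm1) * (wp1 * wm1) ^ 2) := by ring
      rw [this, hE1, hE0]; ring
    linear_combination e1 - e2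
  have hw22 : w2 ^ 2 ≠ 0 := pow_ne_zero 2 hw2
  have := (mul_eq_zero.mp key).resolve_right hw22
  linear_combination this

/-- Even step: `n = 2m`. `pA = ψ₂(mQ)`. -/
lemma alg_even_step {x Xm1 Xm Xp1 Xn wm2 wm1 wm wp1 wp2 w2 wnm1 wn wnp1 pA : F}
    (hCm1 : (Xm1 - x) * wm1 ^ 2 = -(wm * wm2))
    (hCm : (Xm - x) * wm ^ 2 = -(wp1 * wm1))
    (hCp1 : (Xp1 - x) * wp1 ^ 2 = -(wp2 * wm))
    (hn : wn * w2 = wm1 ^ 2 * wm * wp2 - wm2 * wm * wp1 ^ 2)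
    (hnp1 : wnp1 = wp2 * wm ^ 3 - wm1 * wp1 ^ 3)
    (hnm1 : wnm1 = wp1 * wm1 ^ 3 - wm2 * wm ^ 3)
    (T' : (Xp1 - Xm) * (Xm1 - Xm) * (Xm - x) ^ 2 = (Xn - x) * pA ^ 2)
    (D : (Xp1 - Xm1) * (Xm - x) ^ 2 = -(pA * w2))
    (hw2 : w2 ≠ 0) (hXm : Xm - x ≠ 0) :
    (Xn - x) * wn ^ 2 = -(wnp1 * wnm1) := by
  have hE := alg_E hCm1 hCp1 hn
  have hO := alg_O hCm hCp1 hnp1
  have hO' : (Xm - Xm1) * (wm * wm1) ^ 2 = -wnm1 := by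
    rw [hnm1]
    linear_combination wm1 ^ 2 * hCm - wm ^ 2 * hCm1
  have hXm2 : (Xm - x) ^ 2 ≠ 0 := pow_ne_zero 2 hXm
  have hddag : (Xn - x) * (Xp1 - Xm1) ^ 2 * (Xm - x) ^ 2
      = -(w2 ^ 2 * (Xp1 - Xm) * (Xm - Xm1)) := by
    have h : ((Xn - x) * (Xp1 - Xm1) ^ 2 * (Xm - x) ^ 2
        + w2 ^ 2 * (Xp1 - Xm) * (Xm - Xm1)) * (Xm - x) ^ 2 = 0 := by
      linear_combination (-(w2 ^ 2)) * T'
        + (Xn - x) * ((Xp1 - Xm1) * (Xm - x) ^ 2 - pA * w2) * D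
    have := (mul_eq_zero.mp h).resolve_right hXm2
    linear_combination this
  have h3 : (Xm - x) ^ 2 * wm ^ 4 = (wp1 * wm1) ^ 2 := by
    have : (Xm - x) ^ 2 * wm ^ 4 = ((Xm - x) * wm ^ 2) ^ 2 := by ring
    rw [this, hCm]; ring
  have key : ((Xn - x) * wn ^ 2 + wnp1 * wnm1) * w2 ^ 2 = 0 := by
    have e0 : (wn * w2) ^ 2 = (Xp1 - Xm1) ^ 2 * (wp1 * wm1) ^ 2 * (wp1 * wm1) ^ 2 := by
      have : wn * w2 = -((Xp1 - Xm1) * (wp1 * wm1) ^ 2) := by rw [hE]; ring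
      rw [this]; ring
    have e1 : (Xn - x) * (wn * w2) ^ 2
        = -(w2 ^ 2 * ((Xp1 - Xm) * (wp1 * wm) ^ 2) * ((Xm - Xm1) * (wm * wm1) ^ 2)) := by
      rw [e0]
      nth_rewrite 1 [← h3]
      linear_combination wm ^ 4 * (wp1 * wm1) ^ 2 * hddag
    rw [hO, hO'] at e1
    linear_combination e1
  have hw22 : w2 ^ 2 ≠ 0 := pow_ne_zero 2 hw2
  have := (mul_eq_zero.mp key).resolve_right hw22
  linear_combination this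

end S13H30
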