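import Mathlib.AlgebraicGeometry.EllipticCurve.DivisionPolynomial.Basic
import Mathlib.AlgebraicGeometry.EllipticCurve.Affine.Point

/-!
# Values of division polynomials at a point

`wv W x y k` is the value of the bivariate division polynomial `ψ_k` at `(x, y)`.
-/

set_option autoImplicit false

namespace S13H30

open WeierstrassCurve Polynomial

variable {F : Type*} [CommRing F] (W : WeierstrassCurve F) (x y : F)

/-- The value of the `k`-th division polynomial `ψ_k` at `(x, y)`. -/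
noncomputable def wv (k : ℤ) : F := (WeierstrassCurve.ψ W k).evalEval x y

lemma wv_zero : wv W x y 0 = 0 := by
  rw [wv, WeierstrassCurve.ψ_zero, evalEval_zero]

lemma wv_one : wv W x y 1 = 1 := by
  rw [wv, WeierstrassCurve.ψ_one, evalEval_one]

lemma wv_two : wv W x y 2 = 2 * y + W.a₁ * x + W.a₃ := by
  rw [wv, WeierstrassCurve.ψ_two, WeierstrassCurve.ψ₂, Affine.evalEval_polynomialY]

lemma wv_three :
    wv W x y 3 = 3 * x ^ 4 + W.b₂ * x ^ 3 + 3 * W.b₄ * x ^ 2 + 3 * W.b₆ * x + W.b₈ := by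
  rw [wv, WeierstrassCurve.ψ_three, evalEval_C, WeierstrassCurve.Ψ₃]
  simp

lemma wv_four :
    wv W x y 4 = (2 * x ^ 6 + W.b₂ * x ^ 5 + 5 * W.b₄ * x ^ 4 + 10 * W.b₆ * x ^ 3
      + 10 * W.b₈ * x ^ 2 + (W.b₂ * W.b₈ - W.b₄ * W.b₆) * x + (W.b₄ * W.b₈ - W.b₆ ^ 2))
        * wv W x y 2 := by
  rw [wv, wv, WeierstrassCurve.ψ_four, WeierstrassCurve.ψ_two, evalEval_mul, evalEval_C,
    WeierstrassCurve.preΨ₄]
  simp

lemma wv_neg (k : ℤ) : wv W x y (-k) = - wv W x y k := by
  rw [wv, wv, WeierstrassCurve.ψ_neg, evalEval_neg]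

lemma wv_odd (m : ℤ) :
    wv W x y (2 * m + 1)
      = wv W x y (m + 2) * wv W x y m ^ 3 - wv W x y (m - 1) * wv W x y (m + 1) ^ 3 := by
  simp only [wv]
  rw [WeierstrassCurve.ψ_odd, evalEval_sub, evalEval_mul, evalEval_mul, evalEval_pow,
    evalEval_pow]

lemma wv_even (m : ℤ) :
    wv W x y (2 * m) * wv W x y 2
      = wv W x y (m - 1) ^ 2 * wv W x y m * wv W x y (m + 2)
        - wv W x y (m - 2) * wv W x y m * wv W x y (m + 1) ^ 2 := by
  have h := congrArg (Polynomial.evalEval x y) (WeierstrassCurve.ψ_even W m)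
  simp only [evalEval_sub, evalEval_mul, evalEval_pow] at h
  rw [← WeierstrassCurve.ψ_two] at h
  exact h

end S13H30
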