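import Fermat.Agent.S13.H30.TwoPoint
import Fermat.Agent.S13.H30.Alg
import Fermat.Agent.S13.H30.Wv

/-!
# The multiplication formula in the nondegenerate range

For a point `Q = (x, y)` of a Weierstrass curve over a field, with `k • Q ≠ 0` for `1 ≤ k ≤ N`,
we prove for all `1 ≤ k ≤ N`:

* `ψ_k(Q) ≠ 0`;
* `(x(kQ) - x) ψ_k(Q)² = - ψ_{k+1}(Q) ψ_{k-1}(Q)`.

As a consequence `(N+1) • Q = 0 ↔ ψ_{N+1}(Q) = 0`.
-/

set_option autoImplicit false
set_option linter.unusedSectionVars false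

namespace S13H30

open WeierstrassCurve S05H65

variable {F : Type*} [Field F] [DecidableEq F] {W : WeierstrassCurve.Affine F}

/-- `C(k)` together with the nonvanishing of `ψ_k(Q)`. -/
def CRel (W : WeierstrassCurve.Affine F) (x y : F) (Q : W.Point) (k : ℤ) : Prop :=
  wv W x y k ≠ 0 ∧
    (px (k • Q) - x) * wv W x y k ^ 2 = -(wv W x y (k + 1) * wv W x y (k - 1))

lemma CRel.rel {x y : F} {Q : W.Point} {k : ℤ} (hc : CRel W x y Q k) (kp km : ℤ)
    (hp : kp = k + 1) (hm : km = k - 1) :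
    (px (k • Q) - x) * wv W x y k ^ 2 = -(wv W x y kp * wv W x y km) := by
  subst hp hm
  exact hc.2

lemma wv_odd_ix {x y : F} (m n a b c : ℤ) (hn : n = 2 * m + 1) (ha : a = m + 2)
    (hb : b = m - 1) (hc : c = m + 1) :
    wv W x y n = wv W x y a * wv W x y m ^ 3 - wv W x y b * wv W x y c ^ 3 := by
  subst hn ha hb hc
  exact wv_odd W x y m

lemma wv_even_ix {x y : F} (m n a b c d : ℤ) (hn : n = 2 * m) (ha : a = m - 1)
    (hb : b = m + 2) (hc : c = m - 2) (hd : d = m + 1) :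
    wv W x y n * wv W x y 2
      = wv W x y a ^ 2 * wv W x y m * wv W x y b - wv W x y c * wv W x y m * wv W x y d ^ 2 := by
  subst hn ha hb hc hd
  exact wv_even W x y m

/-- Distinct x-coordinates of multiples. -/
lemma px_zsmul_ne {Q : W.Point} {i j : ℤ} (hi : i • Q ≠ 0) (hj : j • Q ≠ 0)
    (hd : (i - j) • Q ≠ 0) (hs : (i + j) • Q ≠ 0) : px (i • Q) ≠ px (j • Q) := by
  intro h
  rcases eq_or_eq_neg_of_px_eq hi hj h with h1 | h1
  · apply hd
    rw [sub_zsmul, h1]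
    exact add_neg_cancel _
  · apply hs
    rw [add_zsmul, h1, neg_add_cancel]

lemma px_zsmul_eq_of_add {Q : W.Point} {i j : ℤ} (hs : (i + j) • Q = 0) :
    px (i • Q) = px (j • Q) := by
  have : i • Q = -(j • Q) := by
    rw [add_zsmul] at hs
    exact eq_neg_of_add_eq_zero_left hs
  rw [this, px_neg]

section Base

variable {x y : F} {Q : W.Point}

lemma crel_one (hQx : px Q = x) : CRel W x y Q 1 := by
  refine ⟨?_, ?_⟩
  · rw [wv_one]; exact one_ne_zero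
  · rw [one_zsmul, hQx, sub_self, zero_mul, show (1 - 1 : ℤ) = 0 from rfl, wv_zero, mul_zero,
      neg_zero]

lemma wv_two_sq (hQ0 : Q ≠ 0) (hQx : px Q = x) (hQ2 : psi2 Q = wv W x y 2) :
    wv W x y 2 ^ 2 = psi2sq W x := by
  rw [← hQ2, psi2_sq Q hQ0, hQx]

lemma wv_two_ne_zero (hQ0 : Q ≠ 0) (hQx : px Q = x) (hQ2 : psi2 Q = wv W x y 2)
    (h2 : (2 : ℤ) • Q ≠ 0) : wv W x y 2 ≠ 0 := by
  intro h0
  apply h2
  rw [two_zsmul, add_self_eq_zero_iff hQ0, hQx, ← wv_two_sq hQ0 hQx hQ2, h0]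
  ring

lemma wv_two_eq_zero_iff (hQ0 : Q ≠ 0) (hQx : px Q = x) (hQ2 : psi2 Q = wv W x y 2) :
    (2 : ℤ) • Q = 0 ↔ wv W x y 2 = 0 := by
  rw [two_zsmul, add_self_eq_zero_iff hQ0, hQx, ← wv_two_sq hQ0 hQx hQ2]
  exact pow_eq_zero_iff (two_ne_zero)

lemma crel_two (hQ0 : Q ≠ 0) (hQx : px Q = x) (hQ2 : psi2 Q = wv W x y 2)
    (h2 : (2 : ℤ) • Q ≠ 0) : CRel W x y Q 2 := by
  refine ⟨wv_two_ne_zero hQ0 hQx hQ2 h2, ?_⟩
  have hd := px_add_self hQ0 (by rwa [two_zsmul] at h2)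
  rw [← two_zsmul, hQx] at hd
  rw [show (2 + 1 : ℤ) = 3 from rfl, show (2 - 1 : ℤ) = 1 from rfl, wv_one, wv_three,
    wv_two_sq hQ0 hQx hQ2]
  simp only [psi2sq, dupNum] at hd ⊢
  linear_combination hd

/-- Pure algebra for `C(3)`. -/
lemma alg_base3 {b₂ b₄ b₆ b₈ x X2 X3 w2 w3 w4 : F}
    (hb : 4 * b₈ = b₂ * b₆ - b₄ ^ 2)
    (hw2 : w2 ^ 2 = 4 * x ^ 3 + b₂ * x ^ 2 + 2 * b₄ * x + b₆)
    (hw3 : w3 = 3 * x ^ 4 + b₂ * x ^ 3 + 3 * b₄ * x ^ 2 + 3 * b₆ * x + b₈)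
    (hw4 : w4 = (2 * x ^ 6 + b₂ * x ^ 5 + 5 * b₄ * x ^ 4 + 10 * b₆ * x ^ 3
      + 10 * b₈ * x ^ 2 + (b₂ * b₈ - b₄ * b₆) * x + (b₄ * b₈ - b₆ ^ 2)) * w2)
    (hC2 : (X2 - x) * w2 ^ 2 = -w3)
    (hsum : (X3 + x) * (X2 - x) ^ 2
      = 2 * X2 * x * (X2 + x) + b₂ * X2 * x + b₄ * (X2 + x) + b₆) :
    (X3 - x) * w3 ^ 2 = -(w4 * w2) := by
  have h1 : (X3 - x) * (X2 - x) ^ 2
      = (4 * x ^ 3 + b₂ * x ^ 2 + 2 * b₄ * x + b₆) + (X2 - x) * (6 * x ^ 2 + b₂ * x + b₄) := by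
    linear_combination hsum
  have h2 : w3 ^ 2 = (X2 - x) ^ 2 * (w2 ^ 2) ^ 2 := by
    have : w3 = -((X2 - x) * w2 ^ 2) := by rw [hC2]; ring
    rw [this]; ring
  have h3 : (X3 - x) * w3 ^ 2
      = w2 ^ 2 * (w2 ^ 2 * (4 * x ^ 3 + b₂ * x ^ 2 + 2 * b₄ * x + b₆)
          - w3 * (6 * x ^ 2 + b₂ * x + b₄)) := by
    rw [h2]
    linear_combination (w2 ^ 2) ^ 2 * h1 + w2 ^ 2 * (6 * x ^ 2 + b₂ * x + b₄) * hC2
  linear_combination h3 + w2 * hw4
    + w2 ^ 2 * (4 * x ^ 3 + b₂ * x ^ 2 + 2 * b₄ * x + b₆) * hw2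
    - w2 ^ 2 * (6 * x ^ 2 + b₂ * x + b₄) * hw3 + w2 ^ 2 * x ^ 2 * hb

lemma crel_three (hQ0 : Q ≠ 0) (hQx : px Q = x) (hQ2 : psi2 Q = wv W x y 2)
    (h2 : (2 : ℤ) • Q ≠ 0) (h3 : (3 : ℤ) • Q ≠ 0) : CRel W x y Q 3 := by
  have hw2 := wv_two_ne_zero hQ0 hQx hQ2 h2
  have hC2 := (crel_two hQ0 hQx hQ2 h2).rel 3 1 rfl rfl
  rw [wv_one, mul_one] at hC2
  have h1 : (1 : ℤ) • Q ≠ 0 := by rwa [one_zsmul]
  have hne : px ((2 : ℤ) • Q) ≠ px Q := by
    have := px_zsmul_ne (i := 2) (j := 1) h2 h1 (by rwa [show (2 - 1 : ℤ) = 1 from rfl])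
      (by rwa [show (2 + 1 : ℤ) = 3 from rfl])
    rwa [one_zsmul] at this
  refine ⟨?_, ?_⟩
  · intro h0
    rw [h0, neg_zero] at hC2
    rcases mul_eq_zero.mp hC2 with h | h
    · exact hne (by rw [hQx]; exact sub_eq_zero.mp h)
    · exact hw2 ((pow_eq_zero_iff two_ne_zero).mp h)
  · have hsum := px_add_add_px_sub h2 hQ0 hne
    have e3 : (2 : ℤ) • Q + Q = (3 : ℤ) • Q := by
      rw [show (3 : ℤ) = 2 + 1 from rfl, add_zsmul, one_zsmul]
    have e1 : (2 : ℤ) • Q - Q = Q := by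
      rw [two_zsmul, add_sub_cancel_right]
    rw [e3, e1, hQx] at hsum
    show (px ((3 : ℤ) • Q) - x) * wv W x y 3 ^ 2 = -(wv W x y 4 * wv W x y 2)
    exact alg_base3 W.b_relation (wv_two_sq hQ0 hQx hQ2) (wv_three W x y) (wv_four W x y)
      hC2 hsum

end Base

section Index

variable {x y : F} {Q : W.Point}

lemma zsmul_add_zsmul_ix (i j k : ℤ) (hk : k = i + j) : i • Q + j • Q = k • Q := by
  subst hk
  rw [add_zsmul]

lemma zsmul_sub_zsmul_ix (i j k : ℤ) (hk : k = i - j) : i • Q - j • Q = k • Q := by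
  subst hk
  rw [sub_eq_add_neg i j, add_zsmul, neg_zsmul, sub_eq_add_neg]

/-- `D` for multiples of `Q`. -/
lemma D_ix (i j s d : ℤ) (hs : s = i + j) (hd : d = i - j) (hi : i • Q ≠ 0) (hj : j • Q ≠ 0)
    (hne : px (i • Q) ≠ px (j • Q)) :
    (px (s • Q) - px (d • Q)) * (px (i • Q) - px (j • Q)) ^ 2
      = -(psi2 (i • Q) * psi2 (j • Q)) := by
  have := px_add_sub_px_sub hi hj hne
  rwa [zsmul_add_zsmul_ix i j s hs, zsmul_sub_zsmul_ix i j d hd] at this

/-- `D` for `i • Q` and `Q`. -/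
lemma D_one (hQ0 : Q ≠ 0) (hQx : px Q = x) (hQ2 : psi2 Q = wv W x y 2)
    (i s d : ℤ) (hs : s = i + 1) (hd : d = i - 1) (hi : i • Q ≠ 0) (hne : px (i • Q) ≠ x) :
    (px (s • Q) - px (d • Q)) * (px (i • Q) - x) ^ 2 = -(psi2 (i • Q) * wv W x y 2) := by
  have h1 : (1 : ℤ) • Q ≠ 0 := by rwa [one_zsmul]
  have := D_ix i 1 s d hs hd hi h1 (by rwa [one_zsmul, hQx])
  rwa [one_zsmul, hQx, hQ2] at this

/-- `T'` for `i • Q` and `Q`. -/
lemma T'_one (hQ0 : Q ≠ 0) (hQx : px Q = x)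
    (i s d n : ℤ) (hs : s = i + 1) (hd : d = i - 1) (hn : n = 2 * i) (hi : i • Q ≠ 0)
    (hne : px (i • Q) ≠ x) (h2 : n • Q ≠ 0) :
    (px (s • Q) - px (i • Q)) * (px (d • Q) - px (i • Q)) * (px (i • Q) - x) ^ 2
      = (px (n • Q) - x) * psi2 (i • Q) ^ 2 := by
  have e2 : i • Q + i • Q = n • Q := zsmul_add_zsmul_ix i i n (by rw [hn]; ring)
  have es : i • Q + Q = s • Q := by
    have := zsmul_add_zsmul_ix (Q := Q) i 1 s hs
    rwa [one_zsmul] at this
  have ed : i • Q - Q = d • Q := by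
    have := zsmul_sub_zsmul_ix (Q := Q) i 1 d hd
    rwa [one_zsmul] at this
  have := px_add_sub_self_mul' hi hQ0 (by rwa [hQx]) (by rwa [e2])
  rwa [es, ed, e2, hQx] at this

/-- `px (i • Q) ≠ x` in the nondegenerate range. -/
lemma px_zsmul_ne_x (hQ0 : Q ≠ 0) (hQx : px Q = x) (i : ℤ) (hi : i • Q ≠ 0)
    (hd : (i - 1) • Q ≠ 0) (hs : (i + 1) • Q ≠ 0) : px (i • Q) ≠ x := by
  have h1 : (1 : ℤ) • Q ≠ 0 := by rwa [one_zsmul]
  have := px_zsmul_ne hi h1 hd hs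
  rwa [one_zsmul, hQx] at this

end Index

section Step

variable {x y : F} {Q : W.Point}

lemma crel_odd (hQ0 : Q ≠ 0) (hQx : px Q = x) (hQ2 : psi2 Q = wv W x y 2)
    (m : ℤ) (hm : 2 ≤ m)
    (hN : ∀ k : ℤ, 1 ≤ k → k ≤ 2 * m + 1 → k • Q ≠ 0)
    (IH : ∀ j : ℤ, 1 ≤ j → j ≤ 2 * m → CRel W x y Q j) :
    CRel W x y Q (2 * m + 1) := by
  have h2 : (2 : ℤ) • Q ≠ 0 := hN 2 (by norm_num) (by linarith)
  have hw2 := wv_two_ne_zero hQ0 hQx hQ2 h2
  have hA : (m + 1) • Q ≠ 0 := hN _ (by linarith) (by linarith)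
  have hB : m • Q ≠ 0 := hN _ (by linarith) (by linarith)
  have hBm : (m - 1) • Q ≠ 0 := hN _ (by linarith) (by linarith)
  have hAp : (m + 2) • Q ≠ 0 := hN _ (by linarith) (by linarith)
  have hn0 : (2 * m + 1) • Q ≠ 0 := hN _ (by linarith) le_rfl
  have h1Q : (1 : ℤ) • Q ≠ 0 := by rwa [one_zsmul]
  -- the relations `C`
  have hCm1 := (IH (m - 1) (by linarith) (by linarith)).rel m (m - 2) (by ring) (by ring)
  have hCm := (IH m (by linarith) (by linarith)).rel (m + 1) (m - 1) rfl rfl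
  have hCp1 := (IH (m + 1) (by linarith) (by linarith)).rel (m + 2) m (by ring) (by ring)
  have hCp2 := (IH (m + 2) (by linarith) (by linarith)).rel (m + 3) (m + 1) (by ring) (by ring)
  have hwm := (IH m (by linarith) (by linarith)).1
  have hwp1 := (IH (m + 1) (by linarith) (by linarith)).1
  -- the recurrences
  have hn := wv_odd_ix (W := W) (x := x) (y := y) m (2 * m + 1) (m + 2) (m - 1) (m + 1)
    rfl rfl rfl rfl
  have hnm1 := wv_even_ix (W := W) (x := x) (y := y) m (2 * m + 1 - 1) (m - 1) (m + 2) (m - 2)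
    (m + 1) (by ring) rfl rfl rfl rfl
  have hnp1 := wv_even_ix (W := W) (x := x) (y := y) (m + 1) (2 * m + 1 + 1) m (m + 3) (m - 1)
    (m + 2) (by ring) (by ring) (by ring) (by ring) (by ring)
  -- distinct x-coordinates
  have hAB : px ((m + 1) • Q) ≠ px (m • Q) :=
    px_zsmul_ne hA hB (by rwa [show m + 1 - m = 1 by ring])
      (by rwa [show m + 1 + m = 2 * m + 1 by ring])
  have hAQ : px ((m + 1) • Q) ≠ x :=
    px_zsmul_ne_x hQ0 hQx _ hA (by rwa [show m + 1 - 1 = m by ring])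
      (by rwa [show m + 1 + 1 = m + 2 by ring])
  have hBQ : px (m • Q) ≠ x := px_zsmul_ne_x hQ0 hQx _ hB hBm hA
  -- the two-point identities
  have D1 := D_ix (Q := Q) (m + 1) m (2 * m + 1) 1 (by ring) (by ring) hA hB hAB
  rw [one_zsmul, hQx] at D1
  have D2 := D_one hQ0 hQx hQ2 (m + 1) (m + 2) m (by ring) (by ring) hA hAQ
  have D3 := D_one hQ0 hQx hQ2 m (m + 1) (m - 1) rfl rfl hB hBQ
  refine ⟨?_, alg_odd_step hCm1 hCm hCp1 hCp2 hn hnm1 hnp1 D1 D2 D3 hw2⟩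
  -- nonvanishing
  have hO := alg_O hCm hCp1 hn
  intro h0
  rw [h0, neg_zero] at hO
  rcases mul_eq_zero.mp hO with h | h
  · exact hAB (sub_eq_zero.mp h)
  · rcases mul_eq_zero.mp ((pow_eq_zero_iff two_ne_zero).mp h) with h | h
    · exact hwp1 h
    · exact hwm h

lemma crel_even (hQ0 : Q ≠ 0) (hQx : px Q = x) (hQ2 : psi2 Q = wv W x y 2)
    (m : ℤ) (hm : 2 ≤ m)
    (hN : ∀ k : ℤ, 1 ≤ k → k ≤ 2 * m → k • Q ≠ 0)
    (IH : ∀ j : ℤ, 1 ≤ j → j ≤ 2 * m - 1 → CRel W x y Q j) :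
    CRel W x y Q (2 * m) := by
  have h2 : (2 : ℤ) • Q ≠ 0 := hN 2 (by norm_num) (by linarith)
  have hw2 := wv_two_ne_zero hQ0 hQx hQ2 h2
  have hA : m • Q ≠ 0 := hN _ (by linarith) (by linarith)
  have hAm : (m - 1) • Q ≠ 0 := hN _ (by linarith) (by linarith)
  have hAp : (m + 1) • Q ≠ 0 := hN _ (by linarith) (by linarith)
  have hn0 : (2 * m) • Q ≠ 0 := hN _ (by linarith) le_rfl
  -- the relations `C`
  have hCm1 := (IH (m - 1) (by linarith) (by linarith)).rel m (m - 2) (by ring) (by ring)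
  have hCm := (IH m (by linarith) (by linarith)).rel (m + 1) (m - 1) rfl rfl
  have hCp1 := (IH (m + 1) (by linarith) (by linarith)).rel (m + 2) m (by ring) (by ring)
  have hwm1 := (IH (m - 1) (by linarith) (by linarith)).1
  have hwp1 := (IH (m + 1) (by linarith) (by linarith)).1
  -- the recurrences
  have hn := wv_even_ix (W := W) (x := x) (y := y) m (2 * m) (m - 1) (m + 2) (m - 2)
    (m + 1) rfl rfl rfl rfl rfl
  have hnp1 := wv_odd_ix (W := W) (x := x) (y := y) m (2 * m + 1) (m + 2) (m - 1) (m + 1)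
    rfl rfl rfl rfl
  have hnm1 := wv_odd_ix (W := W) (x := x) (y := y) (m - 1) (2 * m - 1) (m + 1) (m - 2) m
    (by ring) (by ring) (by ring) (by ring)
  -- distinct x-coordinates
  have hAQ : px (m • Q) ≠ x := px_zsmul_ne_x hQ0 hQx _ hA hAm hAp
  have hpm : px ((m + 1) • Q) ≠ px ((m - 1) • Q) :=
    px_zsmul_ne hAp hAm (by rwa [show m + 1 - (m - 1) = 2 by ring])
      (by rwa [show m + 1 + (m - 1) = 2 * m by ring])
  -- the two-point identities
  have T' := T'_one hQ0 hQx m (m + 1) (m - 1) (2 * m) rfl rfl rfl hA hAQ hn0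
  have D := D_one hQ0 hQx hQ2 m (m + 1) (m - 1) rfl rfl hA hAQ
  refine ⟨?_, alg_even_step hCm1 hCm hCp1 hn hnp1 hnm1 T' D hw2 (sub_ne_zero.mpr hAQ)⟩
  -- nonvanishing
  have hE := alg_E hCm1 hCp1 hn
  intro h0
  rw [h0, zero_mul, neg_zero] at hE
  rcases mul_eq_zero.mp hE with h | h
  · exact hpm (sub_eq_zero.mp h)
  · rcases mul_eq_zero.mp ((pow_eq_zero_iff two_ne_zero).mp h) with h | h
    · exact hwp1 h
    · exact hwm1 h

/-- All relations `C(k)` in the nondegenerate range, integer-indexed. -/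
theorem crel_all (hQ0 : Q ≠ 0) (hQx : px Q = x) (hQ2 : psi2 Q = wv W x y 2) (N : ℤ)
    (hN : ∀ k : ℤ, 1 ≤ k → k ≤ N → k • Q ≠ 0) :
    ∀ n : ℕ, ∀ k : ℤ, 1 ≤ k → k ≤ n → k ≤ N → CRel W x y Q k := by
  intro n
  induction n with
  | zero =>
    intro k hk1 hk0 _
    exfalso
    simp only [Nat.cast_zero] at hk0
    omega
  | succ n ih =>
    intro k hk1 hkn hkN
    rcases (show k ≤ n ∨ k = n + 1 by push_cast at hkn; omega) with h | h
    · exact ih k hk1 h hkN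
    · have IH : ∀ j : ℤ, 1 ≤ j → j < k → CRel W x y Q j :=
        fun j hj1 hjk => ih j hj1 (by omega) (by omega)
      have hN' : ∀ j : ℤ, 1 ≤ j → j ≤ k → j • Q ≠ 0 :=
        fun j hj1 hjk => hN j hj1 (by omega)
      clear ih hN
      rcases (show k = 1 ∨ k = 2 ∨ k = 3 ∨ 4 ≤ k by omega) with rfl | rfl | rfl | hk4
      · exact crel_one hQx
      · exact crel_two hQ0 hQx hQ2 (hN' 2 (by norm_num) le_rfl)
      · exact crel_three hQ0 hQx hQ2 (hN' 2 (by norm_num) (by norm_num))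
          (hN' 3 (by norm_num) le_rfl)
      · rcases Int.even_or_odd' k with ⟨m, rfl | rfl⟩
        · exact crel_even hQ0 hQx hQ2 m (by omega) hN'
            (fun j hj1 hj => IH j hj1 (by omega))
        · exact crel_odd hQ0 hQx hQ2 m (by omega) hN'
            (fun j hj1 hj => IH j hj1 (by omega))

/-- `(N+1) • Q = 0 ↔ ψ_{N+1}(Q) = 0` in the nondegenerate range, integer-indexed. -/
theorem zsmul_eq_zero_iff_wv (hQ0 : Q ≠ 0) (hQx : px Q = x) (hQ2 : psi2 Q = wv W x y 2)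
    (N : ℤ) (hN0 : 0 ≤ N) (hN : ∀ k : ℤ, 1 ≤ k → k ≤ N → k • Q ≠ 0) :
    (N + 1) • Q = 0 ↔ wv W x y (N + 1) = 0 := by
  have hC : ∀ k : ℤ, 1 ≤ k → k ≤ N → CRel W x y Q k := fun k hk1 hkN =>
    crel_all hQ0 hQx hQ2 N hN N.toNat k hk1 (by omega) hkN
  rcases (show N = 0 ∨ N = 1 ∨ 2 ≤ N by omega) with rfl | rfl | hN2
  · rw [show (0 + 1 : ℤ) = 1 from rfl, one_zsmul, wv_one]
    exact ⟨fun h => absurd h hQ0, fun h => absurd h one_ne_zero⟩
  · exact wv_two_eq_zero_iff hQ0 hQx hQ2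
  · have h2 : (2 : ℤ) • Q ≠ 0 := hN 2 (by norm_num) hN2
    have hw2 := wv_two_ne_zero hQ0 hQx hQ2 h2
    have h1Q : (1 : ℤ) • Q ≠ 0 := by rwa [one_zsmul]
    rcases Int.even_or_odd' (N + 1) with ⟨m, hm | hm⟩
    · -- `N + 1 = 2 m`, `m ≥ 2`
      have hm2 : 2 ≤ m := by omega
      rw [hm]
      have hAm : (m - 1) • Q ≠ 0 := hN _ (by linarith) (by linarith)
      have hAp : (m + 1) • Q ≠ 0 := hN _ (by linarith) (by linarith)
      have hCm1 := (hC (m - 1) (by linarith) (by linarith)).rel m (m - 2) (by ring) (by ring)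
      have hCp1 := (hC (m + 1) (by linarith) (by linarith)).rel (m + 2) m (by ring) (by ring)
      have hwm1 := (hC (m - 1) (by linarith) (by linarith)).1
      have hwp1 := (hC (m + 1) (by linarith) (by linarith)).1
      have hn := wv_even_ix (W := W) (x := x) (y := y) m (2 * m) (m - 1) (m + 2) (m - 2)
        (m + 1) rfl rfl rfl rfl rfl
      have hE := alg_E hCm1 hCp1 hn
      constructor
      · intro h0
        have hX : px ((m + 1) • Q) = px ((m - 1) • Q) :=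
          px_zsmul_eq_of_add (by rwa [show m + 1 + (m - 1) = 2 * m by ring])
        rw [hX, sub_self, zero_mul] at hE
        have : wv W x y (2 * m) * wv W x y 2 = 0 := by
          have := hE.symm
          rwa [neg_eq_zero] at this
        exact (mul_eq_zero.mp this).resolve_right hw2
      · intro h0
        by_contra hne
        have hpm : px ((m + 1) • Q) ≠ px ((m - 1) • Q) :=
          px_zsmul_ne hAp hAm (by rwa [show m + 1 - (m - 1) = 2 by ring])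
            (by rwa [show m + 1 + (m - 1) = 2 * m by ring])
        rw [h0, zero_mul, neg_zero] at hE
        rcases mul_eq_zero.mp hE with h | h
        · exact hpm (sub_eq_zero.mp h)
        · rcases mul_eq_zero.mp ((pow_eq_zero_iff two_ne_zero).mp h) with h | h
          · exact hwp1 h
          · exact hwm1 h
    · -- `N + 1 = 2 m + 1`, `m ≥ 1`
      have hm1 : 1 ≤ m := by omega
      rw [hm]
      have hA : (m + 1) • Q ≠ 0 := hN _ (by linarith) (by linarith)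
      have hB : m • Q ≠ 0 := hN _ (by linarith) (by linarith)
      have hCm := (hC m (by linarith) (by linarith)).rel (m + 1) (m - 1) rfl rfl
      have hCp1 := (hC (m + 1) (by linarith) (by linarith)).rel (m + 2) m (by ring) (by ring)
      have hwm := (hC m (by linarith) (by linarith)).1
      have hwp1 := (hC (m + 1) (by linarith) (by linarith)).1
      have hn := wv_odd_ix (W := W) (x := x) (y := y) m (2 * m + 1) (m + 2) (m - 1) (m + 1)
        rfl rfl rfl rfl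
      have hO := alg_O hCm hCp1 hn
      constructor
      · intro h0
        have hX : px ((m + 1) • Q) = px (m • Q) :=
          px_zsmul_eq_of_add (by rwa [show m + 1 + m = 2 * m + 1 by ring])
        rw [hX, sub_self, zero_mul] at hO
        have := hO.symm
        rwa [neg_eq_zero] at this
      · intro h0
        by_contra hne
        have hAB : px ((m + 1) • Q) ≠ px (m • Q) :=
          px_zsmul_ne hA hB (by rwa [show m + 1 - m = 1 by ring])
            (by rwa [show m + 1 + m = 2 * m + 1 by ring])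
        rw [h0, neg_zero] at hO
        rcases mul_eq_zero.mp hO with h | h
        · exact hAB (sub_eq_zero.mp h)
        · rcases mul_eq_zero.mp ((pow_eq_zero_iff two_ne_zero).mp h) with h | h
          · exact hwp1 h
          · exact hwm h

end Step

section Main

variable {x y : F}

/-- **Multiplication formula in the nondegenerate range.** -/
theorem mul_formula (h : W.Nonsingular x y) (N : ℕ)
    (hN : ∀ k : ℕ, 1 ≤ k → k ≤ N → k • (Affine.Point.some x y h) ≠ 0)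
    (k : ℕ) (hk1 : 1 ≤ k) (hkN : k ≤ N) :
    wv W x y k ≠ 0 ∧
    (px (k • Affine.Point.some x y h) - x) * wv W x y k ^ 2
        = -(wv W x y (k + 1) * wv W x y (k - 1)) := by
  have hNz : ∀ j : ℤ, 1 ≤ j → j ≤ (N : ℤ) → j • (Affine.Point.some x y h) ≠ 0 := by
    intro j hj1 hjN
    obtain ⟨n, rfl⟩ := Int.eq_ofNat_of_zero_le (by linarith : (0 : ℤ) ≤ j)
    rw [natCast_zsmul]
    exact hN n (by exact_mod_cast hj1) (by exact_mod_cast hjN)
  have hc := crel_all (Affine.Point.some_ne_zero h) (px_some h)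
    (by rw [psi2_some, wv_two]) (N : ℤ) hNz N (k : ℤ) (by exact_mod_cast hk1)
    (by exact_mod_cast hkN) (by exact_mod_cast hkN)
  refine ⟨hc.1, ?_⟩
  have := hc.2
  rwa [natCast_zsmul] at this

/-- **Division polynomials detect torsion in the nondegenerate range.** -/
theorem in_range (h : W.Nonsingular x y) (N : ℕ)
    (hN : ∀ k : ℕ, 1 ≤ k → k ≤ N → k • (Affine.Point.some x y h) ≠ 0) :
    (∀ k : ℕ, 1 ≤ k → k ≤ N → (WeierstrassCurve.ψ W (k : ℤ)).evalEval x y ≠ 0) ∧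
    ((N + 1) • (Affine.Point.some x y h) = 0 ↔
        (WeierstrassCurve.ψ W ((N + 1 : ℕ) : ℤ)).evalEval x y = 0) := by
  refine ⟨fun k hk1 hkN => (mul_formula h N hN k hk1 hkN).1, ?_⟩
  have hNz : ∀ j : ℤ, 1 ≤ j → j ≤ (N : ℤ) → j • (Affine.Point.some x y h) ≠ 0 := by
    intro j hj1 hjN
    obtain ⟨n, rfl⟩ := Int.eq_ofNat_of_zero_le (by linarith : (0 : ℤ) ≤ j)
    rw [natCast_zsmul]
    exact hN n (by exact_mod_cast hj1) (by exact_mod_cast hjN)
  have := zsmul_eq_zero_iff_wv (Affine.Point.some_ne_zero h) (px_some h)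
    (by rw [psi2_some, wv_two]) (N : ℤ) (Int.natCast_nonneg N) hNz
  rw [show ((N : ℤ) + 1) = ((N + 1 : ℕ) : ℤ) by push_cast; ring, natCast_zsmul] at this
  exact this

end Main

end S13H30
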