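import Fermat.Agent.S05.H65.Sym

/-!
# Two-point identities for x-coordinates on a Weierstrass curve

For affine points `A`, `B` with different x-coordinates:
* `D`  : `(x(A+B) - x(A-B)) (x_A - x_B)² = - ψ₂(A) ψ₂(B)`
* `T`  : `(x(A+B) - x_A)(x(A-B) - x_A)(x_A - x_B)² = dupNum(x_A) - x_B ψ₂²(x_A)`
-/

set_option autoImplicit false

namespace S13H30

open WeierstrassCurve S05H65

section Formulas

variable {F : Type*} [Field F] {W : WeierstrassCurve.Affine F}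

lemma diff_formula {x₁ y₁ x₂ y₂ : F} (hx : x₁ ≠ x₂) :
    (W.addX x₁ x₂ ((y₁ - y₂) / (x₁ - x₂)) - W.addX x₁ x₂ ((y₁ - W.negY x₂ y₂) / (x₁ - x₂)))
        * (x₁ - x₂) ^ 2
      = - ((2 * y₁ + W.a₁ * x₁ + W.a₃) * (2 * y₂ + W.a₁ * x₂ + W.a₃)) := by
  have hd : x₁ - x₂ ≠ 0 := sub_ne_zero.mpr hx
  simp only [Affine.addX, Affine.negY]
  field_simp
  ring

end Formulas

section Points

variable {F : Type*} [Field F] [DecidableEq F] {W : WeierstrassCurve.Affine F}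

/-- The value of `ψ₂ = 2y + a₁x + a₃` at a point, with junk value `0` at infinity. -/
def psi2 : W.Point → F
  | .zero => 0
  | .some x y _ => 2 * y + W.a₁ * x + W.a₃

@[simp] lemma psi2_zero : psi2 (0 : W.Point) = 0 := rfl

@[simp] lemma psi2_some {x y : F} (h : W.Nonsingular x y) :
    psi2 (Affine.Point.some x y h) = 2 * y + W.a₁ * x + W.a₃ := rfl

lemma psi2_neg (P : W.Point) : psi2 (-P) = - psi2 P := by
  rcases P with _ | ⟨x, y, h⟩
  · exact (neg_zero (G := F)).symm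
  · rw [Affine.Point.neg_some, psi2_some, psi2_some, Affine.negY]
    ring

lemma psi2_sq (P : W.Point) (hP : P ≠ 0) : psi2 P ^ 2 = psi2sq W (px P) := by
  rcases P with _ | ⟨x, y, h⟩
  · exact absurd rfl hP
  · rw [psi2_some, px_some, psi2sq, ← psi_sq_formula h.1, Affine.negY]
    ring

/-- `D`: `(x(A+B) - x(A-B)) (x_A - x_B)² = - ψ₂(A) ψ₂(B)`. -/
theorem px_add_sub_px_sub {P Q : W.Point} (hP : P ≠ 0) (hQ : Q ≠ 0) (h : px P ≠ px Q) :
    (px (P + Q) - px (P - Q)) * (px P - px Q) ^ 2 = - (psi2 P * psi2 Q) := by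
  rcases P with _ | ⟨x₁, y₁, h₁⟩
  · exact absurd rfl hP
  rcases Q with _ | ⟨x₂, y₂, h₂⟩
  · exact absurd rfl hQ
  simp only [px_some, psi2_some] at h ⊢
  rw [sub_eq_add_neg (Affine.Point.some x₁ y₁ h₁), Affine.Point.neg_some,
    Affine.Point.add_of_X_ne h,
    Affine.Point.add_of_X_ne h, px_some, px_some, Affine.slope_of_X_ne h, Affine.slope_of_X_ne h]
  exact diff_formula h

/-- `T`: `(x(A+B) - x_A)(x(A-B) - x_A)(x_A - x_B)² = dupNum(x_A) - x_B ψ₂²(x_A)`. -/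
theorem px_add_sub_self_mul {P Q : W.Point} (hP : P ≠ 0) (hQ : Q ≠ 0) (h : px P ≠ px Q) :
    (px (P + Q) - px P) * (px (P - Q) - px P) * (px P - px Q) ^ 2
      = dupNum W (px P) - px Q * psi2sq W (px P) := by
  have hs := px_add_add_px_sub hP hQ h
  have hp := px_add_mul_px_sub hP hQ h
  have hb : 4 * W.b₈ = W.b₂ * W.b₆ - W.b₄ ^ 2 := W.b_relation
  simp only [dupNum, psi2sq]
  linear_combination hp - px P * hs

/-- `T'`: `(x(A+B) - x_A)(x(A-B) - x_A)(x_A - x_B)² = (x(2A) - x_B) ψ₂(A)²`. -/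
theorem px_add_sub_self_mul' {P Q : W.Point} (hP : P ≠ 0) (hQ : Q ≠ 0) (h : px P ≠ px Q)
    (h2 : P + P ≠ 0) :
    (px (P + Q) - px P) * (px (P - Q) - px P) * (px P - px Q) ^ 2
      = (px (P + P) - px Q) * psi2 P ^ 2 := by
  rw [px_add_sub_self_mul hP hQ h, psi2_sq P hP, sub_mul, px_add_self hP h2]

end Points

end S13H30
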